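import Fermat.Agent.X015.JInvariant
import Fermat.Prelude.Def_FLTPrelim_GaloisRep

/-!
# Stable lines and rational parameters

A Galois-stable line in `E[3]` resp. `E[5]` gives a rational parameter.
-/

namespace Fermat.Agent.X015

open WeierstrassCurve WeierstrassCurve.Affine

local notation "Qbar" => AlgebraicClosure ℚ

variable (E : Affine ℚ)

local instance isAlgebraicQbar_x015 : Algebra.IsAlgebraic ℚ Qbar := AlgebraicClosure.isAlgebraic ℚ
local instance isAlgClosureQbar_x015 : IsAlgClosure ℚ Qbar := ⟨inferInstance, inferInstance⟩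
local instance isGaloisQbar_x015 : IsGalois ℚ Qbar := IsAlgClosure.isGalois ℚ Qbar

/-- A reducible mod `p` representation on a torsion group of cardinal `p²` has an eigenpoint. -/
theorem exists_eigenpoint {p : ℕ} (hp : p.Prime)
    (hcard : Nat.card (Submodule.torsionBy ℤ (E⁄Qbar).Point (p : ℤ)) = p ^ 2)
    (hred : ¬ Affine.Point.GaloisRepIsIrreducible (K := Qbar) ℚ E p) :
    ∃ P : (E⁄Qbar).Point, P ≠ 0 ∧ (p : ℤ) • P = 0 ∧
      ∀ σ : Qbar ≃ₐ[ℚ] Qbar, ∃ k : ℤ, σ • P = k • P := by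
  have : Fact p.Prime := ⟨hp⟩
  have hfin : Finite (Submodule.torsionBy ℤ (E⁄Qbar).Point (p : ℤ)) :=
    Nat.finite_of_card_ne_zero (hcard ▸ pow_ne_zero 2 hp.ne_zero)
  have hnt : Nontrivial (Submodule.torsionBy ℤ (E⁄Qbar).Point (p : ℤ)) :=
    Finite.one_lt_card_iff_nontrivial.1 (hcard ▸ Nat.one_lt_pow two_ne_zero hp.one_lt)
  unfold Affine.Point.GaloisRepIsIrreducible at hred
  simp only [not_and, not_forall, not_or] at hred
  obtain ⟨N, hN, hbot, htop⟩ := hred hnt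
  obtain ⟨i, hi, hcardN⟩ := (Nat.dvd_prime_pow hp).1
    (hcard ▸ N.toAddSubgroup.card_addSubgroup_dvd_card)
  have hi1 : i = 1 := by
    interval_cases i
    · exact absurd (Submodule.toAddSubgroup_injective
        (AddSubgroup.card_eq_one.1 (by rw [hcardN, pow_zero]))) hbot
    · rfl
    · exact absurd (by simpa using
        N.toAddSubgroup.eq_top_of_card_eq (hcardN.trans hcard.symm)) htop
  subst hi1
  rw [pow_one] at hcardN
  obtain ⟨⟨P, hPN⟩, hP⟩ : ∃ P : N.toAddSubgroup, P ≠ 0 :=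
    @exists_ne _ (Finite.one_lt_card_iff_nontrivial.1 (lt_of_lt_of_eq hp.one_lt hcardN.symm)) 0
  refine ⟨P.1, fun h => hP (Subtype.ext (Subtype.ext h)),
    (Submodule.mem_torsionBy_iff _ _).1 P.2, fun σ => ?_⟩
  obtain ⟨k, hk⟩ := AddSubgroup.mem_zmultiples_iff.1
    (mem_zmultiples_of_prime_card (g' := (⟨σ • P, hN σ P hPN⟩ : N.toAddSubgroup)) hcardN hP)
  exact ⟨k, (congrArg (fun z : N.toAddSubgroup => z.1.1) hk).symm⟩

theorem algEquiv_smul_some (σ : Qbar ≃ₐ[ℚ] Qbar) {x y : Qbar}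
    (h : (E⁄Qbar).Nonsingular x y) :
    σ • Affine.Point.some x y h = Affine.Point.some (σ x) (σ y)
      ((baseChange_nonsingular (W := E.toAffine) (f := σ.toAlgHom) σ.injective x y).mpr h) :=
  rfl

/-- An algebraic number fixed by the Galois group is rational. -/
theorem exists_rat_of_fixed {z : Qbar} (h : ∀ σ : Qbar ≃ₐ[ℚ] Qbar, σ z = z) :
    ∃ r : ℚ, algebraMap ℚ Qbar r = z :=
  (InfiniteGalois.mem_range_algebraMap_iff_fixed z).2 h

theorem exists_param_three (hΔ : E.Δ ≠ 0)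
    (hcard : Nat.card (Submodule.torsionBy ℤ (E⁄Qbar).Point (3 : ℕ)) = 3 ^ 2)
    (hred : ¬ Affine.Point.GaloisRepIsIrreducible (K := Qbar) ℚ E 3) :
    ∃ t : ℚ, t ≠ 0 ∧ E.c₄ ^ 3 * t = E.Δ * ((t + 27) * (t + 3) ^ 3) := by
  obtain ⟨P, hP0, hP3, hσ⟩ := exists_eigenpoint E (p := 3) Nat.prime_three hcard hred
  cases P with
  | zero => exact absurd rfl hP0
  | some x y h =>
  have hΔK : (E⁄Qbar).Δ ≠ 0 := by simpa [WeierstrassCurve.baseChange, map_Δ] using hΔ
  set P := Affine.Point.some x y h with hPdef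
  have hneg : P + P = -P := by
    rw [eq_neg_iff_add_eq_zero]
    calc P + P + P = (3 : ℤ) • P := by abel
      _ = 0 := hP3
  have hy : y ≠ (E⁄Qbar).negY x y := by
    intro hy
    rw [hPdef, Affine.Point.add_self_of_Y_eq hy, eq_comm, neg_eq_zero] at hneg
    exact hP0 hneg
  have hX : (E⁄Qbar).addX x x ((E⁄Qbar).slope x x y y) = x := by
    rw [hPdef, Affine.Point.add_self_of_Y_ne hy, Affine.Point.neg_some] at hneg
    exact (Affine.Point.some.inj hneg).1
  have hfix : ∀ σ : Qbar ≃ₐ[ℚ] Qbar, σ x = x := by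
    intro σ
    obtain ⟨k, hk⟩ := hσ σ
    have hk' : σ • P = (k % 3) • P := by
      rw [hk]
      conv_lhs => rw [← Int.emod_add_mul_ediv k 3, add_zsmul, mul_comm, mul_zsmul]
      rw [show (3 : ℤ) • P = 0 from hP3, zsmul_zero, add_zero]
    have h3 : k % 3 = 0 ∨ k % 3 = 1 ∨ k % 3 = 2 := by omega
    rcases h3 with h0 | h0 | h0 <;> rw [h0] at hk'
    · rw [zero_zsmul, hPdef, algEquiv_smul_some] at hk'
      exact absurd hk' (Affine.Point.some_ne_zero _)
    · rw [one_zsmul, hPdef, algEquiv_smul_some] at hk'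
      exact (Affine.Point.some.inj hk').1
    · rw [two_zsmul, hneg, hPdef, algEquiv_smul_some, Affine.Point.neg_some] at hk'
      exact (Affine.Point.some.inj hk').1
  obtain ⟨x₀, rfl⟩ := exists_rat_of_fixed hfix
  obtain ⟨ht0, ht⟩ := param_three (E⁄Qbar) h.1 hΔK hy hX
  set t₀ : ℚ := (E.b₄ + x₀ * E.b₂ + 6 * x₀ ^ 2) ^ 3 /
    (E.b₆ + 2 * x₀ * E.b₄ + x₀ ^ 2 * E.b₂ + 4 * x₀ ^ 3) ^ 2 - 27
  refine ⟨t₀, ?_, (algebraMap ℚ Qbar).injective ?_⟩
  · intro h0
    apply ht0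
    have := congrArg (algebraMap ℚ Qbar) h0
    simpa [t₀, WeierstrassCurve.baseChange] using this
  · simpa [t₀, WeierstrassCurve.baseChange] using ht

/-- A reducible `E[5]` gives a rational point of `X₀(5)` over `j(E)`. -/
theorem exists_param_five (hΔ : E.Δ ≠ 0)
    (hcard : Nat.card (Submodule.torsionBy ℤ (E⁄Qbar).Point (5 : ℕ)) = 5 ^ 2)
    (hred : ¬ Affine.Point.GaloisRepIsIrreducible (K := Qbar) ℚ E 5) :
    ∃ s : ℚ, s ≠ 0 ∧ E.c₄ ^ 3 * s = E.Δ * (s ^ 2 + 10 * s + 5) ^ 3 := by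
  obtain ⟨P, hP0, hP5, hσ⟩ := exists_eigenpoint E (p := 5) (by norm_num) hcard hred
  cases P with
  | zero => exact absurd rfl hP0
  | some x y h =>
  have hΔK : (E⁄Qbar).Δ ≠ 0 := by simpa [WeierstrassCurve.baseChange, map_Δ] using hΔ
  set P := Affine.Point.some x y h with hPdef
  have h5 : (5 : ℤ) • P = 0 := hP5
  have hy : y ≠ (E⁄Qbar).negY x y := by
    intro hy
    have h2 : P + P = 0 := by rw [hPdef]; exact Affine.Point.add_self_of_Y_eq hy
    apply hP0
    calc P = (5 : ℤ) • P - 2 • (P + P) := by abel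
      _ = 0 := by rw [h5, h2]; simp
  obtain ⟨x₂, hx₂⟩ : ∃ x₂, (E⁄Qbar).addX x x
      ((E⁄Qbar).slope x x y y) = x₂ := ⟨_, rfl⟩
  obtain ⟨y₂, hy₂⟩ : ∃ y₂, (E⁄Qbar).addY x x y
      ((E⁄Qbar).slope x x y y) = y₂ := ⟨_, rfl⟩
  have h2n : (E⁄Qbar).Nonsingular x₂ y₂ := by
    rw [← hx₂, ← hy₂]; exact Affine.nonsingular_add h h fun hc => hy hc.2
  set Q := Affine.Point.some x₂ y₂ h2n with hQdef
  have hdbl : P + P = Q := by
    rw [hPdef, Affine.Point.add_self_of_Y_ne hy]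
    simp only [hQdef, hx₂, hy₂]
  have hQ2 : Q + Q = -P := by
    rw [← hdbl, eq_neg_iff_add_eq_zero]
    calc P + P + (P + P) + P = (5 : ℤ) • P := by abel
      _ = 0 := h5
  have hne : x ≠ x₂ := by
    intro hxx
    rcases (Affine.Point.X_eq_iff (h₁ := h) (h₂ := h2n)).1 hxx with hPQ | hPQ
    · apply hP0
      change P = Q at hPQ
      rw [← hdbl] at hPQ
      simp at hPQ
    · apply hP0
      change P = -Q at hPQ
      rw [← hdbl, eq_neg_iff_add_eq_zero] at hPQ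
      calc P = 2 • (P + (P + P)) - (5 : ℤ) • P := by abel
        _ = 0 := by rw [h5, hPQ]; simp
  have hX : (E⁄Qbar).addX x x₂ ((E⁄Qbar).slope x x₂ y y₂) = x₂ := by
    have h3 : P + Q = -Q := by
      rw [eq_neg_iff_add_eq_zero, ← hdbl]
      calc P + (P + P) + (P + P) = (5 : ℤ) • P := by abel
        _ = 0 := h5
    rw [hPdef, hQdef, Affine.Point.add_of_X_ne hne, Affine.Point.neg_some] at h3
    exact (Affine.Point.some.inj h3).1
  have hfix : ∀ σ : Qbar ≃ₐ[ℚ] Qbar, (σ x = x ∧ σ x₂ = x₂) ∨ (σ x = x₂ ∧ σ x₂ = x) := by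
    intro σ
    obtain ⟨k, hk⟩ := hσ σ
    have hk' : σ • P = (k % 5) • P := by
      rw [hk]
      conv_lhs => rw [← Int.emod_add_mul_ediv k 5, add_zsmul, mul_comm, mul_zsmul]
      rw [h5, zsmul_zero, add_zero]
    have hQσ : σ • Q = σ • P + σ • P := by rw [← hdbl]; exact smul_add σ P P
    have h05 : k % 5 = 0 ∨ k % 5 = 1 ∨ k % 5 = 2 ∨ k % 5 = 3 ∨ k % 5 = 4 := by omega
    have e3 : (3 : ℤ) • P = -Q := by
      rw [eq_neg_iff_add_eq_zero, ← hdbl]
      calc (3 : ℤ) • P + (P + P) = (5 : ℤ) • P := by abel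
        _ = 0 := h5
    have e4 : (4 : ℤ) • P = -P := by
      rw [eq_neg_iff_add_eq_zero]
      calc (4 : ℤ) • P + P = (5 : ℤ) • P := by abel
        _ = 0 := h5
    rcases h05 with h0 | h0 | h0 | h0 | h0 <;> rw [h0] at hk'
    · rw [zero_zsmul, hPdef, algEquiv_smul_some] at hk'
      exact absurd hk' (Affine.Point.some_ne_zero _)
    · rw [one_zsmul] at hk'
      rw [hk', hdbl, hQdef, algEquiv_smul_some] at hQσ
      rw [hPdef, algEquiv_smul_some] at hk'
      exact Or.inl ⟨(Affine.Point.some.inj hk').1, (Affine.Point.some.inj hQσ).1⟩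
    · rw [two_zsmul, hdbl] at hk'
      rw [hk', hQ2, hPdef, Affine.Point.neg_some, hQdef, algEquiv_smul_some] at hQσ
      rw [hPdef, algEquiv_smul_some, hQdef] at hk'
      exact Or.inr ⟨(Affine.Point.some.inj hk').1, (Affine.Point.some.inj hQσ).1⟩
    · rw [e3] at hk'
      rw [hk', ← neg_add, hQ2, neg_neg, hPdef, hQdef, algEquiv_smul_some] at hQσ
      rw [hPdef, algEquiv_smul_some, hQdef, Affine.Point.neg_some] at hk'
      exact Or.inr ⟨(Affine.Point.some.inj hk').1, (Affine.Point.some.inj hQσ).1⟩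
    · rw [e4] at hk'
      rw [hk', ← neg_add, hdbl, hQdef, algEquiv_smul_some, Affine.Point.neg_some] at hQσ
      rw [hPdef, algEquiv_smul_some, Affine.Point.neg_some] at hk'
      exact Or.inl ⟨(Affine.Point.some.inj hk').1, (Affine.Point.some.inj hQσ).1⟩
  obtain ⟨D, hD⟩ : ∃ D : ℚ, algebraMap ℚ Qbar D = (x - x₂) ^ 2 := by
    apply exists_rat_of_fixed
    intro σ
    rcases hfix σ with ⟨h1, h2⟩ | ⟨h1, h2⟩ <;> simp only [map_pow, map_sub, h1, h2]
    ring
  obtain ⟨hs0, hs⟩ := param_five (E⁄Qbar) h.1 hΔK hy hx₂ hy₂ hne hX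
  have hD' : (D : Qbar) = (x - x₂) ^ 2 := by simpa using hD
  refine ⟨E.Δ / D ^ 3, ?_, (algebraMap ℚ Qbar).injective ?_⟩
  · intro h0
    apply hs0
    have := congrArg (algebraMap ℚ Qbar) h0
    simp only [map_div₀, map_pow, hD, map_zero] at this
    simpa [WeierstrassCurve.baseChange] using this
  · simpa [WeierstrassCurve.baseChange, hD'] using hs

/-- Irreducibility modulo `3` or `5` for semistable models, given the order of the torsion. -/
theorem modThreeOrFive (W : WeierstrassCurve ℤ) (hΔ : W.Δ ≠ 0)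
    (hss : (5 : ℤ) ∣ W.Δ → ¬ (5 : ℤ) ∣ W.c₄)
    (hcard : ∀ p : ℕ, p.Prime → Nat.card (Submodule.torsionBy ℤ
      ((W.map (Int.castRingHom ℚ)).toAffine⁄Qbar).Point (p : ℤ)) = p ^ 2) :
    Affine.Point.GaloisRepIsIrreducible (K := Qbar) ℚ (W.map (Int.castRingHom ℚ)) 3 ∨
      Affine.Point.GaloisRepIsIrreducible (K := Qbar) ℚ (W.map (Int.castRingHom ℚ)) 5 := by
  by_contra hcon
  obtain ⟨h3, h5⟩ := not_or.1 hcon
  have hΔ' : (W.map (Int.castRingHom ℚ)).Δ ≠ 0 := by simpa [map_Δ] using hΔ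
  obtain ⟨t, ht, ht'⟩ := exists_param_three _ hΔ' (hcard 3 Nat.prime_three) h3
  obtain ⟨s, hs, hs'⟩ := exists_param_five _ hΔ' (hcard 5 (by norm_num)) h5
  rw [map_Δ, map_c₄] at ht' hs'
  exact no_semistable hΔ hss ht hs ht' hs'

end Fermat.Agent.X015
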