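import Fermat.Agent.X015.Descent

/-!
# Rational points on the fibre product X₀(15)

The fibre product of `j = (t + 27)(t + 3)³ / t` and `j = (s² + 10 s + 5)³ / s`:
its rational points with `t, s ≠ 0` lie over four values of `j`.
-/

namespace Fermat.Agent.X015

/-- No rational root (it has none modulo `3`) for
the quartic factor occurring in the eliminants. -/
theorem quarticFactor_ne_zero (w : ℚ) : w ^ 4 + 2 * w ^ 3 - 10 * w ^ 2 + 4 * w + 4 ≠ 0 := by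
  intro h
  have hint : w.num ^ 4 + 2 * w.num ^ 3 * w.den - 10 * w.num ^ 2 * (w.den : ℤ) ^ 2
      + 4 * w.num * (w.den : ℤ) ^ 3 + 4 * (w.den : ℤ) ^ 4 = 0 := by
    have hd : (w.den : ℚ) ≠ 0 := by exact_mod_cast w.den_nz
    have hn : (w.num : ℚ) = w * w.den := (Rat.mul_den_eq_num w).symm
    have : ((w.num ^ 4 + 2 * w.num ^ 3 * w.den - 10 * w.num ^ 2 * (w.den : ℤ) ^ 2
        + 4 * w.num * (w.den : ℤ) ^ 3 + 4 * (w.den : ℤ) ^ 4 : ℤ) : ℚ) = 0 := by
      push_cast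
      rw [hn]
      linear_combination (w.den : ℚ) ^ 4 * h
    exact_mod_cast this
  have key : ∀ u v : ZMod 3, u ^ 4 + 2 * u ^ 3 * v - 10 * u ^ 2 * v ^ 2 + 4 * u * v ^ 3
      + 4 * v ^ 4 = 0 → u = 0 ∧ v = 0 := by decide
  have h0 := congrArg (fun z : ℤ => (z : ZMod 3)) hint
  push_cast at h0
  obtain ⟨hu, hv⟩ := key _ _ h0
  rw [ZMod.intCast_zmod_eq_zero_iff_dvd] at hu
  rw [ZMod.natCast_eq_zero_iff] at hv
  have hu' : 3 ∣ w.num.natAbs := Int.natCast_dvd.1 hu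
  exact absurd (Nat.eq_one_of_dvd_coprimes w.reduced hu' hv) (by norm_num)

/-- The rational points of the plane model `3 w⁴ - Q w³ + 24 s w + s Q = 0`,
`Q = s² + 10 s + 5`, with `s ≠ 0`. -/
theorem plane_points {s w : ℚ} (hs : s ≠ 0) (hw : w ≠ 0)
    (hF : 3 * w ^ 4 - (s ^ 2 + 10 * s + 5) * w ^ 3 + 24 * s * w
      + s * (s ^ 2 + 10 * s + 5) = 0) :
    (s = -10 ∧ w = 5) ∨ (s = -25 / 8 ∧ w = 5 / 6) ∨
    (s = -25 / 2 ∧ w = -5 / 4) ∨ (s = -40 ∧ w = -10 / 3) := by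
  set D : ℚ := 2 * w - w ^ 2 + 4 * s - 2 * s * w - s * w ^ 2 with hD
  set Ng : ℚ := s * w + 10 + 19 * w - 10 * w ^ 2 - 3 * w ^ 3 + 2 * s with hNg
  set Nh : ℚ := s ^ 2 - 10 - 9 * w + 9 * w ^ 2 + 13 * s - 9 * s * w with hNh
  -- the key identity: the image lies on the biquadratic model
  have hG : -Ng * Nh ^ 2 - 9 * Ng * D ^ 2 + Nh * D ^ 2 + 5 * Nh * Ng * D - Nh * Ng ^ 2 = 0 := by
    rw [hD, hNg, hNh]
    linear_combination (-(s ^ 2 * w) - 2 * s ^ 2 + 3 * s * w ^ 2 - 19 * s * w + 10 * s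
      - 27 * w ^ 4 - 63 * w ^ 3 + 267 * w ^ 2 - 80 * w - 100) * hF
  by_cases hD0 : D = 0
  · exact degenerate hw hF (by rw [hD] at hD0; linear_combination hD0)
  set g : ℚ := -Ng / D with hg
  set h : ℚ := -Nh / D with hh
  have hrel : g * h ^ 2 + 9 * g - h + 5 * h * g + h * g ^ 2 = 0 := by
    rw [hg, hh]; field_simp; linear_combination hG
  have hgN : g * D + Ng = 0 := by rw [hg]; field_simp; ring
  have hY : (2 * g * h + g ^ 2 + 5 * g - 1) ^ 2 = (g ^ 2 - g - 1) * (g ^ 2 + 11 * g - 1) := by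
    linear_combination 4 * g * hrel
  rw [hD, hNg] at hgN
  rcases quartic_points hY with h0 | h2 | h12
  · rw [h0] at hgN
    exact g_zero hs hw hF (by linear_combination hgN)
  · rw [h2] at hgN
    exact g_two hw hF (by linear_combination hgN)
  · rw [h12] at hgN
    exact g_neg_half hw hF (by linear_combination 2 * hgN)
where
  degenerate {s w : ℚ} (hw : w ≠ 0)
      (hF : 3 * w ^ 4 - (s ^ 2 + 10 * s + 5) * w ^ 3 + 24 * s * w
        + s * (s ^ 2 + 10 * s + 5) = 0)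
      (hN : s * (4 - 2 * w - w ^ 2) - (w ^ 2 - 2 * w) = 0) :
      (s = -10 ∧ w = 5) ∨ (s = -25 / 8 ∧ w = 5 / 6) ∨
      (s = -25 / 2 ∧ w = -5 / 4) ∨ (s = -40 ∧ w = -10 / 3) := by
    have h := eliminant (n := w ^ 2 - 2 * w) (d := 4 - 2 * w - w ^ 2) hF hN
    have : w * (3 * w + 10) * (w ^ 4 + 2 * w ^ 3 - 10 * w ^ 2 + 4 * w + 4) ^ 2 = 0 := by
      linear_combination -h
    simp only [mul_eq_zero, hw, false_or, pow_eq_zero_iff two_ne_zero, quarticFactor_ne_zero,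
      or_false] at this
    obtain rfl : w = -10 / 3 := by linarith
    exact Or.inr (Or.inr (Or.inr ⟨by linarith, rfl⟩))
  eliminant {s w n d : ℚ}
      (hF : 3 * w ^ 4 - (s ^ 2 + 10 * s + 5) * w ^ 3 + 24 * s * w
        + s * (s ^ 2 + 10 * s + 5) = 0)
      (hN : s * d - n = 0) :
      n ^ 3 + (10 - w ^ 3) * n ^ 2 * d + (5 + 24 * w - 10 * w ^ 3) * n * d ^ 2
        + (3 * w ^ 4 - 5 * w ^ 3) * d ^ 3 = 0 := by
    linear_combination d ^ 3 * hF - (s ^ 2 * d ^ 2 + s * d * (n + (10 - w ^ 3) * d)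
      + (n ^ 2 + (10 - w ^ 3) * n * d + (5 + 24 * w - 10 * w ^ 3) * d ^ 2)) * hN
  g_zero {s w : ℚ} (hs : s ≠ 0) (hw : w ≠ 0)
      (hF : 3 * w ^ 4 - (s ^ 2 + 10 * s + 5) * w ^ 3 + 24 * s * w
        + s * (s ^ 2 + 10 * s + 5) = 0)
      (hN : s * (w + 2) + (10 + 19 * w - 10 * w ^ 2 - 3 * w ^ 3) = 0) :
      (s = -10 ∧ w = 5) ∨ (s = -25 / 8 ∧ w = 5 / 6) ∨
      (s = -25 / 2 ∧ w = -5 / 4) ∨ (s = -40 ∧ w = -10 / 3) := by
    have h := eliminant (n := -(10 + 19 * w - 10 * w ^ 2 - 3 * w ^ 3)) (d := w + 2) hF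
      (by linear_combination hN)
    have : (3 * w - 5) * (3 * w + 10)
        * (w ^ 4 + 2 * w ^ 3 - 10 * w ^ 2 + 4 * w + 4) ^ 2 = 0 := by
      linear_combination -h
    simp only [mul_eq_zero, pow_eq_zero_iff two_ne_zero, quarticFactor_ne_zero, or_false] at this
    rcases this with h1 | h1
    · obtain rfl : w = 5 / 3 := by linarith
      exact absurd (by linarith) hs
    · obtain rfl : w = -10 / 3 := by linarith
      exact Or.inr (Or.inr (Or.inr ⟨by linarith, rfl⟩))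
  g_two {s w : ℚ} (hw : w ≠ 0)
      (hF : 3 * w ^ 4 - (s ^ 2 + 10 * s + 5) * w ^ 3 + 24 * s * w
        + s * (s ^ 2 + 10 * s + 5) = 0)
      (hN : s * (10 - 3 * w - 2 * w ^ 2) + (10 + 23 * w - 12 * w ^ 2 - 3 * w ^ 3) = 0) :
      (s = -10 ∧ w = 5) ∨ (s = -25 / 8 ∧ w = 5 / 6) ∨
      (s = -25 / 2 ∧ w = -5 / 4) ∨ (s = -40 ∧ w = -10 / 3) := by
    have h := eliminant (n := -(10 + 23 * w - 12 * w ^ 2 - 3 * w ^ 3))
      (d := 10 - 3 * w - 2 * w ^ 2) hF (by linear_combination hN)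
    have : (w - 5) * (6 * w - 5) * (3 * w + 10)
        * (w ^ 4 + 2 * w ^ 3 - 10 * w ^ 2 + 4 * w + 4) ^ 2 = 0 := by
      linear_combination h
    simp only [mul_eq_zero, pow_eq_zero_iff two_ne_zero, quarticFactor_ne_zero, or_false] at this
    rcases this with (h1 | h1) | h1
    · obtain rfl : w = 5 := by linarith
      exact Or.inl ⟨by linarith, rfl⟩
    · obtain rfl : w = 5 / 6 := by linarith
      exact Or.inr (Or.inl ⟨by linarith, rfl⟩)
    · obtain rfl : w = -10 / 3 := by linarith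
      exact Or.inr (Or.inr (Or.inr ⟨by linarith, rfl⟩))
  g_neg_half {s w : ℚ} (hw : w ≠ 0)
      (hF : 3 * w ^ 4 - (s ^ 2 + 10 * s + 5) * w ^ 3 + 24 * s * w
        + s * (s ^ 2 + 10 * s + 5) = 0)
      (hN : s * (w * (w + 4)) + (20 + 36 * w - 19 * w ^ 2 - 6 * w ^ 3) = 0) :
      (s = -10 ∧ w = 5) ∨ (s = -25 / 8 ∧ w = 5 / 6) ∨
      (s = -25 / 2 ∧ w = -5 / 4) ∨ (s = -40 ∧ w = -10 / 3) := by
    have h := eliminant (n := -(20 + 36 * w - 19 * w ^ 2 - 6 * w ^ 3))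
      (d := w * (w + 4)) hF (by linear_combination hN)
    have : (4 * w + 5) * (3 * w + 10) ^ 2
        * (w ^ 4 + 2 * w ^ 3 - 10 * w ^ 2 + 4 * w + 4) ^ 2 = 0 := by
      linear_combination -h
    simp only [mul_eq_zero, pow_eq_zero_iff two_ne_zero, quarticFactor_ne_zero, or_false] at this
    rcases this with h1 | h1
    · obtain rfl : w = -5 / 4 := by linarith
      exact Or.inr (Or.inr (Or.inl ⟨by linarith, rfl⟩))
    · obtain rfl : w = -10 / 3 := by linarith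
      exact Or.inr (Or.inr (Or.inr ⟨by linarith, rfl⟩))

end Fermat.Agent.X015
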