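import Mathlib

/-!
# Descent on the quartic model of X₀(15)

Elementary descent on `Y² = (g² - g - 1)(g² + 11 g - 1)`: the only rational abscissae are
`0`, `2`, `-1/2`.  The descent runs through the two concordant-form systems
`x² + 16 y² = □, x² + 25 y² = □` and `x² + y² = □, 25 x² + 16 y² = □`.
-/

namespace Fermat.Agent.X015

/-- Four number lemma. -/
theorem exists_four {m n p q : ℤ} (hm : m ≠ 0) (h : m * n = p * q) :
    ∃ a b c d : ℤ, m = a * b ∧ n = c * d ∧ p = a * c ∧ q = b * d ∧ IsCoprime b c := by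
  have hg : Int.gcd m p ≠ 0 := by simp [Int.gcd_eq_zero_iff, hm]
  obtain ⟨b, c, hbc, hmb, hpc⟩ := Int.exists_gcd_one (Nat.pos_of_ne_zero hg)
  have hbc' : IsCoprime b c := Int.isCoprime_iff_gcd_eq_one.2 hbc
  generalize ha : ((Int.gcd m p : ℕ) : ℤ) = a at hmb hpc
  have ha0 : a ≠ 0 := by rw [← ha]; exact_mod_cast hg
  have hb0 : b ≠ 0 := by rintro rfl; simp at hmb; exact hm hmb
  have hdiv : b * n = c * q := by
    apply mul_left_cancel₀ ha0
    subst hmb; subst hpc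
    linear_combination h
  obtain ⟨d, hd⟩ : b ∣ q := hbc'.dvd_of_dvd_mul_left ⟨n, hdiv.symm⟩
  refine ⟨a, b, c, d, by rw [hmb]; ring, ?_, by rw [hpc]; ring, hd, hbc'⟩
  apply mul_left_cancel₀ hb0
  rw [hdiv, hd]; ring

theorem exists_mul_sq_of_sq_mul_eq {a D X Y : ℤ} (hD : D ≠ 0) (hcop : IsCoprime a D)
    (h : a ^ 2 * X = D ^ 2 * Y) : ∃ k, X = D ^ 2 * k ∧ Y = a ^ 2 * k := by
  obtain ⟨k, hk⟩ : D ^ 2 ∣ X := (hcop.pow (m := 2) (n := 2)).symm.dvd_of_dvd_mul_left ⟨Y, h⟩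
  refine ⟨k, hk, ?_⟩
  apply mul_left_cancel₀ (pow_ne_zero 2 hD)
  rw [← h, hk]; ring

theorem eq_one_or_three_or_nine {b c k s t : ℤ} (hbc : IsCoprime b c)
    (hb : 9 * b ^ 2 = k * s) (hc : 9 * c ^ 2 = k * t) (hs : 0 < s) :
    k = 1 ∨ k = 3 ∨ k = 9 := by
  have h9 : k ∣ 9 := by
    obtain ⟨u, v, huv⟩ := hbc.pow (m := 2) (n := 2)
    exact ⟨u * s + v * t, by linear_combination u * hb + v * hc - 9 * huv⟩
  have hle := Int.le_of_dvd (by norm_num) h9
  have hpos : 0 < k := by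
    by_contra hneg
    have hk0 : k ≠ 0 := by rintro rfl; norm_num at h9
    have : k * s < 0 := mul_neg_of_neg_of_pos (by omega) hs
    nlinarith [sq_nonneg b]
  interval_cases k <;> omega

theorem not_three_dvd_sq_add_sq {a b : ℤ} (h : IsCoprime a b) : ¬ (3 : ℤ) ∣ a ^ 2 + b ^ 2 := by
  intro hd
  have h0 := (ZMod.intCast_zmod_eq_zero_iff_dvd _ 3).2 hd
  push_cast at h0
  have key : ∀ u v : ZMod 3, u ^ 2 + v ^ 2 = 0 → u = 0 ∧ v = 0 := by decide
  obtain ⟨ha, hb⟩ := key _ _ h0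
  rw [ZMod.intCast_zmod_eq_zero_iff_dvd] at ha hb
  have := h.isUnit_of_dvd' ha hb
  exact absurd (Int.isUnit_iff.1 this) (by norm_num)

theorem odd_sq_eq {a : ℤ} (h : a % 2 = 1) : ∃ j, a ^ 2 = 8 * j + 1 := by
  obtain ⟨i, rfl⟩ : ∃ i, a = 2 * i + 1 := ⟨a / 2, by omega⟩
  obtain ⟨j, hj⟩ := Int.even_mul_succ_self i
  exact ⟨j, by linear_combination 4 * hj⟩

/-- Parametrisation of a coprime Pythagorean pair `(x, y)` with `x ≡ 1 (mod 4)`:
`x = m² - (2 n)²`, `y = 4 m n`. -/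
theorem exists_pyth {x y z : ℤ} (hx : x % 4 = 1) (hcop : IsCoprime x y)
    (h : x ^ 2 + y ^ 2 = z ^ 2) :
    ∃ m n : ℤ, x = m ^ 2 - (2 * n) ^ 2 ∧ y = 4 * m * n ∧ m % 2 = 1 ∧ IsCoprime m (2 * n) := by
  have hz : 0 < |z| := by
    rw [abs_pos]
    rintro rfl
    have hx0 : x ≠ 0 := by omega
    have hx2 : 0 < x ^ 2 := by positivity
    nlinarith [sq_nonneg y]
  have ht : PythagoreanTriple x y |z| := by
    unfold PythagoreanTriple
    nlinarith [abs_mul_abs_self z]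
  obtain ⟨m, n, hxe, hye, -, hg, hpar, -⟩ :=
    ht.coprime_classification' (Int.isCoprime_iff_gcd_eq_one.1 hcop) (by omega) hz
  have hg' : IsCoprime m n := Int.isCoprime_iff_gcd_eq_one.2 hg
  rcases hpar with ⟨hm, hn⟩ | ⟨hm, hn⟩
  · exfalso
    obtain ⟨j, hj⟩ := odd_sq_eq hn
    obtain ⟨i, rfl⟩ : ∃ i, m = 2 * i := ⟨m / 2, by omega⟩
    have : x = 4 * (i ^ 2 - 2 * j) - 1 := by rw [hxe, hj]; ring
    omega
  · obtain ⟨i, rfl⟩ : ∃ i, n = 2 * i := ⟨n / 2, by omega⟩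
    exact ⟨m, i, hxe, by rw [hye]; ring, hm, hg'⟩

theorem exists_mod_four_eq_one {x : ℤ} (hx : x % 2 = 1) :
    ∃ x' : ℤ, x' % 4 = 1 ∧ (x' = x ∨ x' = -x) := by
  rcases (show x % 4 = 1 ∨ x % 4 = 3 by omega) with h | h
  · exact ⟨x, h, Or.inl rfl⟩
  · exact ⟨-x, by omega, Or.inr rfl⟩

theorem odd_of_odd_mul {a b : ℤ} (h : (a * b) % 2 = 1) : a % 2 = 1 ∧ b % 2 = 1 := by
  rw [← Int.odd_iff, Int.odd_mul, Int.odd_iff, Int.odd_iff] at h
  exact h

/-- The second system has no solution with `5 ∤ y`. -/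
theorem systemU_five {x y G H : ℤ} (hx : x % 4 = 1) (hcop : IsCoprime x y)
    (h5 : ¬ (5 : ℤ) ∣ y) (hG : x ^ 2 + y ^ 2 = G ^ 2)
    (hH : 25 * x ^ 2 + 16 * y ^ 2 = H ^ 2) : False := by
  obtain ⟨m, n, hx1, hy1, hm, hmn⟩ := exists_pyth hx hcop hG
  have h5p : Prime (5 : ℤ) := Int.prime_iff_natAbs_prime.2 (by norm_num)
  have hcop' : IsCoprime (5 * x) (4 * y) := by
    apply IsCoprime.mul_left
    · apply h5p.coprime_iff_not_dvd.2
      intro hd
      rcases h5p.dvd_or_dvd hd with h | h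
      · norm_num at h
      · exact h5 h
    · apply IsCoprime.mul_right _ hcop
      exact ⟨1, -(x / 4), by omega⟩
  obtain ⟨q, p, hx2, hy2, hq, hqp⟩ :=
    exists_pyth (x := 5 * x) (y := 4 * y) (z := H) (by omega) hcop'
      (by linear_combination hH)
  have hy0 : y ≠ 0 := by rintro rfl; simp at h5
  have he : y = q * p := by linarith
  obtain ⟨e, rfl⟩ : (4 : ℤ) ∣ p := by
    have h4 : (4 : ℤ) ∣ q * p := ⟨m * n, by rw [← he, hy1]; ring⟩
    refine IsCoprime.dvd_of_dvd_mul_left ?_ h4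
    obtain ⟨i, rfl⟩ : ∃ i, q = 2 * i + 1 := ⟨q / 2, by omega⟩
    exact IsCoprime.pow_left (m := 2) (x := (2 : ℤ)) ⟨-i, 1, by ring⟩
  have hmn0 : m * n = q * e := by linarith
  have hm0 : m ≠ 0 := by omega
  obtain ⟨a, b, c, d, rfl, rfl, rfl, rfl, hbc⟩ := exists_four hm0 hmn0
  obtain ⟨ha, hb⟩ := odd_of_odd_mul hm
  obtain ⟨-, hc⟩ := odd_of_odd_mul hq
  have hd0 : d ≠ 0 := by rintro rfl; simp [hy1] at hy0
  have had : IsCoprime a (2 * d) := by
    have h1 : IsCoprime a (2 * (c * d)) := hmn.of_mul_left_left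
    rw [show 2 * (c * d) = c * (2 * d) by ring] at h1
    exact h1.of_mul_right_right
  obtain ⟨k, hX, hY⟩ := exists_mul_sq_of_sq_mul_eq (X := 5 * b ^ 2 - c ^ 2)
    (Y := 5 * c ^ 2 - 16 * b ^ 2) (mul_ne_zero two_ne_zero hd0) had
    (by linear_combination hx2 - 5 * hx1)
  obtain ⟨i, hi⟩ := odd_sq_eq ha
  obtain ⟨j, hj⟩ := odd_sq_eq hc
  have hs : 0 < 5 * (2 * d) ^ 2 + a ^ 2 := by positivity
  rcases eq_one_or_three_or_nine hbc (s := 5 * (2 * d) ^ 2 + a ^ 2)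
      (t := 16 * (2 * d) ^ 2 + 5 * a ^ 2) (k := k)
      (by linear_combination 5 * hX + hY) (by linear_combination 16 * hX + 5 * hY) hs
    with rfl | rfl | rfl <;> rw [hi, hj] at hY <;> omega

/-- `x² + 16 y²` and `x² + 25 y²` are both squares only trivially. -/
theorem systemT {x y G H : ℤ} (hx : x % 2 = 1) (hcop : IsCoprime x y)
    (hG : x ^ 2 + 16 * y ^ 2 = G ^ 2) (hH : x ^ 2 + 25 * y ^ 2 = H ^ 2) : y = 0 := by
  induction hN : y.natAbs using Nat.strong_induction_on generalizing x y G H with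
  | _ N IH =>
  by_contra hy0
  obtain ⟨x', hx', hxx⟩ := exists_mod_four_eq_one hx
  have hsq : x' ^ 2 = x ^ 2 := by rcases hxx with rfl | rfl <;> ring
  have hcx : IsCoprime x' y := by
    rcases hxx with rfl | rfl
    · exact hcop
    · exact hcop.neg_left
  have hco4 : IsCoprime x' (4 * y) := by
    refine IsCoprime.mul_right ?_ hcx
    exact ⟨1, -(x' / 4), by omega⟩
  have h5x : ¬ (5 : ℤ) ∣ x' := by
    intro hd
    have h5p : Prime (5 : ℤ) := Int.prime_iff_natAbs_prime.2 (by norm_num)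
    have hH' : (5 : ℤ) ∣ H ^ 2 := by
      rw [← hH, ← hsq]
      exact dvd_add (dvd_pow hd two_ne_zero) ⟨5 * y ^ 2, by ring⟩
    have hy5 : ¬ (5 : ℤ) ∣ y := fun h => h5p.not_isUnit (hcx.isUnit_of_dvd' hd h)
    obtain ⟨u, rfl⟩ := hd
    obtain ⟨w, rfl⟩ := h5p.dvd_of_dvd_pow hH'
    -- so `u² + y² = w²`, and `25 u² + 16 y² = G²`
    have hu4 : u % 4 = 1 := by omega
    exact systemU_five (x := u) (y := y) (G := w) (H := G) hu4 hcx.of_mul_left_right hy5
      (by nlinarith) (by linear_combination hG + hsq)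
  obtain ⟨q, p, hx1, hy1, hq, hqp⟩ :=
    exists_pyth (x := x') (y := 4 * y) hx' hco4 (z := G) (by linear_combination hG + hsq)
  have hco5 : IsCoprime x' (5 * y) := by
    refine IsCoprime.mul_right ?_ hcx
    have h5p : Prime (5 : ℤ) := Int.prime_iff_natAbs_prime.2 (by norm_num)
    exact (h5p.coprime_iff_not_dvd.2 h5x).symm
  obtain ⟨m, n, hx2, hy2, hm, hmn⟩ :=
    exists_pyth (x := x') (y := 5 * y) hx' hco5 (z := H) (by linear_combination hH + hsq)
  have he : y = q * p := by linarith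
  obtain ⟨e, rfl⟩ : (4 : ℤ) ∣ p := by
    have h4 : (4 : ℤ) ∣ 5 * (q * p) := ⟨m * n, by rw [← he, hy2]; ring⟩
    rw [← mul_assoc] at h4
    refine IsCoprime.dvd_of_dvd_mul_left ?_ h4
    obtain ⟨i, rfl⟩ : ∃ i, q = 2 * i + 1 := ⟨q / 2, by omega⟩
    exact IsCoprime.pow_left (m := 2) (x := (2 : ℤ)) ⟨-(5 * i + 2), 1, by ring⟩
  subst he
  have hmn0 : m * n = 5 * (q * e) := by linarith
  have hm0 : m ≠ 0 := by omega
  have h5p : Prime (5 : ℤ) := Int.prime_iff_natAbs_prime.2 (by norm_num)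
  rcases h5p.dvd_or_dvd (show (5 : ℤ) ∣ m * n from ⟨q * e, hmn0⟩) with h5 | h5
  · obtain ⟨m', rfl⟩ := h5
    obtain ⟨a, b, c, d, rfl, rfl, rfl, rfl, hbc⟩ := exists_four (m := m') (n := n) (p := q)
      (q := e) (by rintro rfl; simp at hm0) (by linarith)
    obtain ⟨-, hab⟩ := odd_of_odd_mul hm
    obtain ⟨ha, hb⟩ := odd_of_odd_mul hab
    obtain ⟨-, hc⟩ := odd_of_odd_mul hq
    have hd0 : d ≠ 0 := by rintro rfl; simp at hy0
    have hmn' : IsCoprime (5 * (a * b)) (c * (2 * d)) := by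
      rwa [show c * (2 * d) = 2 * (c * d) by ring]
    have had : IsCoprime a (2 * d) :=
      hmn'.of_mul_left_right.of_mul_left_left.of_mul_right_right
    have h5d : ¬ (5 : ℤ) ∣ 2 * d := fun h =>
      h5p.not_isUnit (hmn'.of_mul_left_left.of_mul_right_right.isUnit_of_dvd' dvd_rfl h)
    obtain ⟨k, hX, hY⟩ := exists_mul_sq_of_sq_mul_eq (X := 25 * b ^ 2 - c ^ 2)
      (Y := c ^ 2 - 16 * b ^ 2) (mul_ne_zero two_ne_zero hd0) had
      (by linear_combination hx1 - hx2)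
    obtain ⟨i, hi⟩ := odd_sq_eq ha
    obtain ⟨j, hj⟩ := odd_sq_eq hc
    have hs : 0 < (2 * d) ^ 2 + a ^ 2 := by positivity
    rcases eq_one_or_three_or_nine hbc (s := (2 * d) ^ 2 + a ^ 2)
        (t := 16 * (2 * d) ^ 2 + 25 * a ^ 2) (k := k)
        (by linear_combination hX + hY) (by linear_combination 16 * hX + 25 * hY) hs
      with rfl | rfl | rfl
    · exact not_three_dvd_sq_add_sq had ⟨3 * b ^ 2, by linear_combination -hX - hY⟩
    · rw [hi, hj] at hY; omega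
    · obtain ⟨a', ha', haa⟩ := exists_mod_four_eq_one ha
      have hsqa : a' ^ 2 = a ^ 2 := by rcases haa with rfl | rfl <;> ring
      have hca : IsCoprime a' (2 * d) := by
        rcases haa with rfl | rfl
        · exact had
        · exact had.neg_left
      exact systemU_five (x := a') (y := 2 * d) (G := b) (H := c) ha' hca h5d
        (by linarith) (by linarith)
  · obtain ⟨n', rfl⟩ := h5
    obtain ⟨a, b, c, d, rfl, rfl, rfl, rfl, hbc⟩ := exists_four (m := m) (n := n') (p := q)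
      (q := e) hm0 (by linarith)
    obtain ⟨ha, hb⟩ := odd_of_odd_mul hm
    obtain ⟨-, hc⟩ := odd_of_odd_mul hq
    have hd0 : d ≠ 0 := by rintro rfl; simp at hy0
    have hmn' : IsCoprime (a * b) ((5 * c) * (2 * d)) := by
      rwa [show (5 * c) * (2 * d) = 2 * (5 * (c * d)) by ring]
    have had : IsCoprime a (2 * d) := hmn'.of_mul_left_left.of_mul_right_right
    obtain ⟨k, hX, hY⟩ := exists_mul_sq_of_sq_mul_eq (X := b ^ 2 - c ^ 2)
      (Y := 25 * c ^ 2 - 16 * b ^ 2) (mul_ne_zero two_ne_zero hd0) had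
      (by linear_combination hx1 - hx2)
    obtain ⟨i, hi⟩ := odd_sq_eq ha
    obtain ⟨j, hj⟩ := odd_sq_eq hc
    have hs : 0 < 25 * (2 * d) ^ 2 + a ^ 2 := by positivity
    rcases eq_one_or_three_or_nine hbc (s := 25 * (2 * d) ^ 2 + a ^ 2)
        (t := 16 * (2 * d) ^ 2 + a ^ 2) (k := k)
        (by linear_combination 25 * hX + hY) (by linear_combination 16 * hX + hY) hs
      with rfl | rfl | rfl
    · exact not_three_dvd_sq_add_sq had
        ⟨3 * c ^ 2 - 5 * (2 * d) ^ 2, by linear_combination -16 * hX - hY⟩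
    · rw [hi, hj] at hY; omega
    · have hlt : (2 * d).natAbs < N := by
        rw [← hN]
        simp only [Int.natAbs_mul]
        have h1 : 1 ≤ a.natAbs := by omega
        have h2 : 1 ≤ b.natAbs := by omega
        have h3 : 1 ≤ c.natAbs := by omega
        have h4 : 1 ≤ d.natAbs := by omega
        have h5 : 1 ≤ a.natAbs * c.natAbs := Nat.one_le_iff_ne_zero.2 (by positivity)
        have h6 : 1 ≤ b.natAbs * (a.natAbs * c.natAbs) := Nat.one_le_iff_ne_zero.2 (by positivity)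
        have h7 := Nat.mul_le_mul_right (4 * d.natAbs) h6
        simp only [Int.reduceAbs]
        nlinarith
      exact mul_ne_zero two_ne_zero hd0
        (IH _ hlt (x := a) (y := 2 * d) (G := c) (H := b) ha had (by linarith) (by linarith) rfl)

/-- `x² + y²` and `25 x² + 16 y²` are both squares only trivially. -/
theorem systemU {x y G H : ℤ} (hx : x % 2 = 1) (hcop : IsCoprime x y)
    (hG : x ^ 2 + y ^ 2 = G ^ 2) (hH : 25 * x ^ 2 + 16 * y ^ 2 = H ^ 2) : y = 0 := by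
  obtain ⟨x', hx', hxx⟩ := exists_mod_four_eq_one hx
  have hsq : x' ^ 2 = x ^ 2 := by rcases hxx with rfl | rfl <;> ring
  have hcx : IsCoprime x' y := by
    rcases hxx with rfl | rfl
    · exact hcop
    · exact hcop.neg_left
  by_cases h5 : (5 : ℤ) ∣ y
  · obtain ⟨z, rfl⟩ := h5
    have h5p : Prime (5 : ℤ) := Int.prime_iff_natAbs_prime.2 (by norm_num)
    obtain ⟨w, rfl⟩ : (5 : ℤ) ∣ H :=
      h5p.dvd_of_dvd_pow (n := 2) ⟨5 * x ^ 2 + 80 * z ^ 2, by rw [← hH]; ring⟩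
    have := systemT (x := x) (y := z) (G := w) (H := G) hx hcop.of_mul_right_right
      (by nlinarith) (by linear_combination hG)
    simp [this]
  · exact (systemU_five hx' hcx h5 (G := G) (H := H) (by linear_combination hG + hsq)
      (by linear_combination hH + 25 * hsq)).elim

theorem systemC {b c u v : ℤ} (hcop : IsCoprime c b) (hb : b ≠ 0)
    (hu : c ^ 2 - 4 * b ^ 2 = u ^ 2) (hv : 4 * c ^ 2 + 9 * b ^ 2 = v ^ 2) :
    c ^ 2 = 4 * b ^ 2 := by
  rcases Int.even_or_odd c with hc | hc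
  · obtain ⟨c', rfl⟩ := hc
    have hb2 : b % 2 = 1 := by
      by_contra h
      have h2 : (2 : ℤ) ∣ b := by omega
      exact absurd (Int.isUnit_iff.1 (hcop.isUnit_of_dvd' ⟨c', by ring⟩ h2)) (by norm_num)
    obtain ⟨u', rfl⟩ : (2 : ℤ) ∣ u :=
      (Int.prime_iff_natAbs_prime.2 (by norm_num)).dvd_of_dvd_pow (n := 2)
        ⟨2 * c' ^ 2 - 2 * b ^ 2, by rw [← hu]; ring⟩
    have hu' : b ^ 2 + u' ^ 2 = c' ^ 2 := by linarith
    have hcu : IsCoprime b u' := by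
      rw [Int.isCoprime_iff_gcd_eq_one]
      by_contra h
      obtain ⟨ℓ, hℓ, hdvd⟩ := Nat.exists_prime_and_dvd h
      have hℓb : (ℓ : ℤ) ∣ b := (Int.natCast_dvd_natCast.2 hdvd).trans (Int.gcd_dvd_left _ _)
      have hℓu : (ℓ : ℤ) ∣ u' := (Int.natCast_dvd_natCast.2 hdvd).trans (Int.gcd_dvd_right _ _)
      have hℓp : Prime (ℓ : ℤ) := Nat.prime_iff_prime_int.1 hℓ
      have hℓc : (ℓ : ℤ) ∣ c' := hℓp.dvd_of_dvd_pow (n := 2)
        (hu' ▸ dvd_add (dvd_pow hℓb two_ne_zero) (dvd_pow hℓu two_ne_zero))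
      exact hℓp.not_isUnit (hcop.isUnit_of_dvd' (dvd_add hℓc hℓc) hℓb)
    have := systemU (x := b) (y := u') (G := c') (H := v) hb2 hcu hu' (by linarith)
    subst this
    linarith
  · exfalso
    have hc2 : c % 2 = 1 := Int.odd_iff.1 hc
    obtain ⟨i, hi⟩ := odd_sq_eq hc2
    have hbe : b % 2 = 0 := by
      by_contra hb2
      obtain ⟨j, hj⟩ := odd_sq_eq (a := b) (by omega)
      rw [hi, hj] at hu
      have key : ∀ w : ZMod 8, w ^ 2 ≠ 5 := by decide
      apply key u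
      have := congrArg (fun z : ℤ => (z : ZMod 8)) hu
      push_cast at this
      rw [← this, show (8 : ZMod 8) = 0 by decide]
      simp only [zero_mul, zero_add, mul_one]
      decide
    obtain ⟨b', rfl⟩ : (2 : ℤ) ∣ b := by omega
    obtain ⟨v', rfl⟩ : (2 : ℤ) ∣ v :=
      (Int.prime_iff_natAbs_prime.2 (by norm_num)).dvd_of_dvd_pow (n := 2)
        ⟨2 * c ^ 2 + 18 * b' ^ 2, by rw [← hv]; ring⟩
    have hu2 : u % 2 = 1 := by
      by_contra h
      obtain ⟨j, rfl⟩ : (2 : ℤ) ∣ u := by omega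
      have : (8 * i + 1) - 4 * (4 * b' ^ 2) = 4 * j ^ 2 := by rw [← hi]; linarith
      omega
    have hub : IsCoprime u b' := by
      rw [Int.isCoprime_iff_gcd_eq_one]
      by_contra h
      obtain ⟨ℓ, hℓ, hdvd⟩ := Nat.exists_prime_and_dvd h
      have hℓu : (ℓ : ℤ) ∣ u := (Int.natCast_dvd_natCast.2 hdvd).trans (Int.gcd_dvd_left _ _)
      have hℓb : (ℓ : ℤ) ∣ b' := (Int.natCast_dvd_natCast.2 hdvd).trans (Int.gcd_dvd_right _ _)
      have hℓp : Prime (ℓ : ℤ) := Nat.prime_iff_prime_int.1 hℓ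
      have hℓc : (ℓ : ℤ) ∣ c := hℓp.dvd_of_dvd_pow (n := 2) (by
        rw [show c ^ 2 = u ^ 2 + 16 * b' ^ 2 by linarith]
        exact dvd_add (dvd_pow hℓu two_ne_zero) ((dvd_pow hℓb two_ne_zero).mul_left _))
      exact hℓp.not_isUnit (hcop.isUnit_of_dvd' hℓc (hℓb.mul_left 2))
    have := systemT (x := u) (y := b') (G := c) (H := v') hu2 hub (by linarith) (by linarith)
    exact hb (by simp [this])

theorem eq_two_mul_of_three_dvd {p q M N : ℤ} (hcop : IsCoprime p q) (hp : p ≠ 0) (hq : q ≠ 0)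
    (h3 : (3 : ℤ) ∣ M) (hMN : M * N = 3 * (p * q))
    (hsum : M ^ 2 + N ^ 2 = p ^ 2 + 5 * (p * q) - q ^ 2) : p = 2 * q := by
  obtain ⟨K, rfl⟩ := h3
  have hK : K * N = p * q := by linarith
  have hK0 : K ≠ 0 := by rintro rfl; simp [hp, hq] at hK
  obtain ⟨a, b, c, d, rfl, rfl, rfl, rfl, hbc⟩ := exists_four hK0 hK
  have ha0 : a ≠ 0 := left_ne_zero_of_mul hp
  have hc0 : c ≠ 0 := right_ne_zero_of_mul hp
  have hb0 : b ≠ 0 := left_ne_zero_of_mul hq
  have hd0 : d ≠ 0 := right_ne_zero_of_mul hq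
  have h3p : Prime (3 : ℤ) := Int.prime_iff_natAbs_prime.2 (by norm_num)
  have h3c : ¬ (3 : ℤ) ∣ c := by
    rintro ⟨c', rfl⟩
    have h3q : (3 : ℤ) ∣ b * d := h3p.dvd_of_dvd_pow (n := 2)
      ⟨3 * (a * c') ^ 2 + 5 * (a * c') * (b * d) - 3 * (a * b) ^ 2 - 3 * (c' * d) ^ 2,
        by linear_combination hsum⟩
    exact h3p.not_isUnit (hcop.isUnit_of_dvd' ⟨a * c', by ring⟩ h3q)
  -- discriminant
  set Z : ℤ := (c ^ 2 - 4 * b ^ 2) * (4 * c ^ 2 + 9 * b ^ 2) with hZ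
  set X : ℤ := 2 * a * (c ^ 2 - 9 * b ^ 2) + 5 * b * c * d with hXdef
  have hX : X ^ 2 = d ^ 2 * Z := by
    rw [hZ, hXdef]; linear_combination -4 * (c ^ 2 - 9 * b ^ 2) * hsum
  obtain ⟨e, he⟩ : d ∣ X := (Int.pow_dvd_pow_iff two_ne_zero).1 ⟨Z, hX⟩
  have hZe : (c ^ 2 - 4 * b ^ 2) * (4 * c ^ 2 + 9 * b ^ 2) = e ^ 2 := by
    apply mul_left_cancel₀ (pow_ne_zero 2 hd0)
    rw [← hZ, ← hX, he]; ring
  have hQpos : 0 < 4 * c ^ 2 + 9 * b ^ 2 := by positivity
  have hgdvd : Int.gcd (c ^ 2 - 4 * b ^ 2) (4 * c ^ 2 + 9 * b ^ 2) ∣ 5 ^ 2 := by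
    obtain ⟨u, v, huv⟩ := hbc.symm.pow (m := 2) (n := 2)
    rw [← Int.natCast_dvd_natCast]
    have h1 := dvd_add
      ((Int.gcd_dvd_left (c ^ 2 - 4 * b ^ 2) (4 * c ^ 2 + 9 * b ^ 2)).mul_right
        (9 * u - 4 * v))
      ((Int.gcd_dvd_right (c ^ 2 - 4 * b ^ 2) (4 * c ^ 2 + 9 * b ^ 2)).mul_right
        (4 * u + v))
    have h2 : (c ^ 2 - 4 * b ^ 2) * (9 * u - 4 * v) +
        (4 * c ^ 2 + 9 * b ^ 2) * (4 * u + v) = ((5 ^ 2 : ℕ) : ℤ) := by
      push_cast; linear_combination (25 : ℤ) * huv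
    rwa [h2] at h1
  obtain ⟨P', Q', hPQ, hP', hQ'⟩ := Int.exists_gcd_one
    (m := c ^ 2 - 4 * b ^ 2) (n := 4 * c ^ 2 + 9 * b ^ 2)
    (Int.gcd_pos_iff.2 (Or.inr hQpos.ne'))
  generalize hg : ((Int.gcd (c ^ 2 - 4 * b ^ 2) (4 * c ^ 2 + 9 * b ^ 2) : ℕ) : ℤ) = g
    at hP' hQ'
  have hg0 : 0 < g := by
    rw [← hg]; exact_mod_cast Int.gcd_pos_iff.2 (Or.inr hQpos.ne')
  have hgc : g = 1 ∨ g = 5 ∨ g = 25 := by
    obtain ⟨i, hi, hgi⟩ := (Nat.dvd_prime_pow (by norm_num : Nat.Prime 5)).1 hgdvd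
    rw [← hg, hgi]
    interval_cases i <;> simp
  have hQ'pos : 0 < Q' := pos_of_mul_pos_left (hQ' ▸ hQpos) hg0.le
  obtain ⟨f, hf⟩ : g ∣ e := (Int.pow_dvd_pow_iff two_ne_zero).1
    ⟨P' * Q', by rw [← hZe, hP', hQ']; ring⟩
  have hPQf : P' * Q' = f ^ 2 := by
    apply mul_left_cancel₀ (pow_ne_zero 2 hg0.ne')
    rw [show g ^ 2 * f ^ 2 = e ^ 2 by rw [hf]; ring, ← hZe, hP', hQ']; ring
  have hco : IsCoprime P' Q' := Int.isCoprime_iff_gcd_eq_one.2 hPQ
  have hP'nn : 0 ≤ P' := nonneg_of_mul_nonneg_left (hPQf ▸ sq_nonneg f) hQ'pos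
  obtain ⟨u, hu | hu⟩ := Int.sq_of_isCoprime hco hPQf
  rotate_left
  · have hu0 : u = 0 := sq_eq_zero_iff.1 (le_antisymm (by linarith) (sq_nonneg u))
    subst hu0
    simp only [hu] at hP'
    norm_num at hP'
    exact finish hp hq hcop hsum (by linarith)
  obtain ⟨v, hv | hv⟩ := Int.sq_of_isCoprime hco.symm (by rw [mul_comm]; exact hPQf)
  rotate_left
  · linarith [sq_nonneg v]
  subst hu hv
  refine finish hp hq hcop hsum ?_
  rcases hgc with rfl | rfl | rfl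
  · exact systemC hbc.symm hb0 (u := u) (v := v) (by linarith) (by linarith)
  · exfalso
    have key : ∀ x y z : ZMod 3, x ≠ 0 → 4 * x ^ 2 + 9 * y ^ 2 ≠ z ^ 2 * 5 := by decide
    apply key (c : ZMod 3) b v
    · rwa [ne_eq, ZMod.intCast_zmod_eq_zero_iff_dvd]
    · have := congrArg (fun z : ℤ => (z : ZMod 3)) hQ'
      push_cast at this
      exact this
  · exact systemC hbc.symm hb0 (u := 5 * u) (v := 5 * v) (by linarith) (by linarith)
where
  /-- The trivial solution of the descent. -/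
  finish {a b c d : ℤ} (hp : a * c ≠ 0) (hq : b * d ≠ 0) (hcop : IsCoprime (a * c) (b * d))
      (hsum : (3 * (a * b)) ^ 2 + (c * d) ^ 2
        = (a * c) ^ 2 + 5 * ((a * c) * (b * d)) - (b * d) ^ 2)
      (hcb : c ^ 2 = 4 * b ^ 2) : a * c = 2 * (b * d) := by
    have hb0 : b ≠ 0 := left_ne_zero_of_mul hq
    have h : c = 2 * b ∨ c = -(2 * b) := sq_eq_sq_iff_eq_or_eq_neg.1 (by rw [hcb]; ring)
    rcases h with rfl | rfl
    · have : 5 * b ^ 2 * (a - d) ^ 2 = 0 := by linear_combination hsum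
      simp [hb0, sub_eq_zero] at this
      subst this; ring
    · have : 5 * b ^ 2 * (a + d) ^ 2 = 0 := by linear_combination hsum
      simp [hb0, add_eq_zero_iff_eq_neg] at this
      subst this; ring

theorem odd_form {p q : ℤ} (hcop : IsCoprime p q) : (p ^ 2 - p * q - q ^ 2) % 2 = 1 := by
  by_contra h
  have h0 : ((p ^ 2 - p * q - q ^ 2 : ℤ) : ZMod 2) = 0 :=
    (ZMod.intCast_zmod_eq_zero_iff_dvd _ 2).2 (by omega)
  push_cast at h0
  have key : ∀ u v : ZMod 2, u ^ 2 - u * v - v ^ 2 = 0 → u = 0 ∧ v = 0 := by decide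
  obtain ⟨hu, hv⟩ := key _ _ h0
  rw [ZMod.intCast_zmod_eq_zero_iff_dvd] at hu hv
  exact absurd (Int.isUnit_iff.1 (hcop.isUnit_of_dvd' hu hv)) (by norm_num)

theorem eq_two_mul {p q A B : ℤ} (hcop : IsCoprime p q) (hp : p ≠ 0) (hq : q ≠ 0)
    (hA : p ^ 2 - p * q - q ^ 2 = A ^ 2) (hB : p ^ 2 + 11 * (p * q) - q ^ 2 = B ^ 2) :
    p = 2 * q := by
  have hAodd : A % 2 = 1 := by
    have := odd_form hcop
    rw [hA, ← Int.odd_iff, Int.odd_pow' two_ne_zero, Int.odd_iff] at this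
    exact this
  have hBodd : B % 2 = 1 := by
    have h := odd_form hcop
    have : (B ^ 2) % 2 = 1 := by
      rw [← hB, show p ^ 2 + 11 * (p * q) - q ^ 2
        = (p ^ 2 - p * q - q ^ 2) + 2 * (6 * (p * q)) by ring]
      omega
    rw [← Int.odd_iff, Int.odd_pow' two_ne_zero, Int.odd_iff] at this
    exact this
  obtain ⟨M, hM⟩ : (2 : ℤ) ∣ B + A := by omega
  obtain ⟨N, hN⟩ : (2 : ℤ) ∣ B - A := by omega
  have hA' : A = M - N := by omega
  have hB' : B = M + N := by omega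
  subst hA' hB'
  have hMN : M * N = 3 * (p * q) := by linarith
  have hsum : M ^ 2 + N ^ 2 = p ^ 2 + 5 * (p * q) - q ^ 2 := by linarith
  have h3p : Prime (3 : ℤ) := Int.prime_iff_natAbs_prime.2 (by norm_num)
  rcases h3p.dvd_or_dvd (⟨p * q, hMN⟩ : (3 : ℤ) ∣ M * N) with h | h
  · exact eq_two_mul_of_three_dvd hcop hp hq h hMN hsum
  · exact eq_two_mul_of_three_dvd hcop hp hq h (by rw [mul_comm]; exact hMN) (by linarith)

/-- The rational points of `Y² = (g² - g - 1)(g² + 11 g - 1)`. -/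
theorem quartic_points {g Y : ℚ} (h : Y ^ 2 = (g ^ 2 - g - 1) * (g ^ 2 + 11 * g - 1)) :
    g = 0 ∨ g = 2 ∨ g = -1 / 2 := by
  by_cases hg : g = 0
  · exact Or.inl hg
  right
  set p : ℤ := g.num
  set q : ℤ := (g.den : ℤ)
  have hq : q ≠ 0 := by simp [q]
  have hp : p ≠ 0 := by simpa [p] using hg
  have hgq : g = (p : ℚ) / (q : ℚ) := by simp [p, q, Rat.num_div_den]
  have hcop : IsCoprime p q := Int.isCoprime_iff_nat_coprime.2 (by simpa [p, q] using g.reduced)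
  have hqQ : (q : ℚ) ≠ 0 := by exact_mod_cast hq
  obtain ⟨e, he⟩ : IsSquare ((p ^ 2 - p * q - q ^ 2) * (p ^ 2 + 11 * (p * q) - q ^ 2)) := by
    rw [← Rat.isSquare_intCast_iff]
    refine ⟨Y * (q : ℚ) ^ 2, ?_⟩
    rw [show Y * (q : ℚ) ^ 2 * (Y * (q : ℚ) ^ 2) = Y ^ 2 * (q : ℚ) ^ 4 by ring, h, hgq]
    field_simp
    push_cast
    ring
  have hco : IsCoprime (p ^ 2 - p * q - q ^ 2) (p ^ 2 + 11 * (p * q) - q ^ 2) := by
    rw [Int.isCoprime_iff_gcd_eq_one]
    by_contra hne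
    obtain ⟨ℓ, hℓ, hdvd⟩ := Nat.exists_prime_and_dvd hne
    have h1 : (ℓ : ℤ) ∣ p ^ 2 - p * q - q ^ 2 :=
      (Int.natCast_dvd_natCast.2 hdvd).trans (Int.gcd_dvd_left _ _)
    have h2 : (ℓ : ℤ) ∣ p ^ 2 + 11 * (p * q) - q ^ 2 :=
      (Int.natCast_dvd_natCast.2 hdvd).trans (Int.gcd_dvd_right _ _)
    have h12 : (ℓ : ℤ) ∣ 2 ^ 2 * 3 * (p * q) := by
      have e : (2 : ℤ) ^ 2 * 3 * (p * q)
          = (p ^ 2 + 11 * (p * q) - q ^ 2) - (p ^ 2 - p * q - q ^ 2) := by ring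
      rw [e]; exact dvd_sub h2 h1
    have hℓp : Prime (ℓ : ℤ) := Nat.prime_iff_prime_int.1 hℓ
    rcases hℓp.dvd_or_dvd h12 with h | h
    · rcases hℓp.dvd_or_dvd h with h | h
      · obtain rfl : ℓ = 2 := (Nat.prime_dvd_prime_iff_eq hℓ Nat.prime_two).1
          (by exact_mod_cast hℓp.dvd_of_dvd_pow h)
        have := odd_form hcop
        push_cast at h1
        omega
      · obtain rfl : ℓ = 3 := (Nat.prime_dvd_prime_iff_eq hℓ Nat.prime_three).1
          (by exact_mod_cast h)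
        have h0 := (ZMod.intCast_zmod_eq_zero_iff_dvd _ 3).2 h1
        push_cast at h0
        have key : ∀ u v : ZMod 3, u ^ 2 - u * v - v ^ 2 = 0 → u = 0 ∧ v = 0 := by decide
        obtain ⟨hu, hv⟩ := key _ _ h0
        rw [ZMod.intCast_zmod_eq_zero_iff_dvd] at hu hv
        exact hℓp.not_isUnit (hcop.isUnit_of_dvd' hu hv)
    · rcases hℓp.dvd_or_dvd h with h | h
      · have hq2 : (ℓ : ℤ) ∣ q ^ 2 := by
          have e : q ^ 2 = p * (p - q) - (p ^ 2 - p * q - q ^ 2) := by ring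
          rw [e]; exact dvd_sub (h.mul_right (p - q)) h1
        exact hℓp.not_isUnit (hcop.isUnit_of_dvd' h (hℓp.dvd_of_dvd_pow hq2))
      · have hp2 : (ℓ : ℤ) ∣ p ^ 2 := by
          have e : p ^ 2 = (p ^ 2 - p * q - q ^ 2) + q * (p + q) := by ring
          rw [e]; exact dvd_add h1 (h.mul_right (p + q))
        exact hℓp.not_isUnit (hcop.isUnit_of_dvd' (hℓp.dvd_of_dvd_pow hp2) h)
  have he' := he.trans (sq e).symm
  have hAne : p ^ 2 - p * q - q ^ 2 ≠ 0 := by have := odd_form hcop; omega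
  have hBne : p ^ 2 + 11 * (p * q) - q ^ 2 ≠ 0 := by
    have := odd_form hcop
    omega
  obtain ⟨A, hA | hA⟩ := Int.sq_of_isCoprime hco he'
  · obtain ⟨B, hB | hB⟩ := Int.sq_of_isCoprime hco.symm (by rw [mul_comm]; exact he')
    · left
      rw [hgq, eq_two_mul hcop hp hq hA hB]
      push_cast; field_simp
    · exfalso
      rw [hA, hB] at he'
      have hA0 : 0 < A ^ 2 := by
        have : A ≠ 0 := by rintro rfl; exact hAne (by rw [hA]; ring)
        positivity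
      have hB0 : 0 < B ^ 2 := by
        have : B ≠ 0 := by rintro rfl; exact hBne (by rw [hB]; ring)
        positivity
      nlinarith [sq_nonneg e, mul_pos hA0 hB0]
  · obtain ⟨B, hB | hB⟩ := Int.sq_of_isCoprime hco.symm (by rw [mul_comm]; exact he')
    · exfalso
      have hA0 : 0 < A ^ 2 := by
        have : A ≠ 0 := by rintro rfl; exact hAne (by rw [hA]; ring)
        positivity
      have hB0 : 0 < B ^ 2 := by
        have : B ≠ 0 := by rintro rfl; exact hBne (by rw [hB]; ring)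
        positivity
      nlinarith [sq_nonneg e, mul_pos hA0 hB0]
    · right
      have := eq_two_mul (p := q) (q := -p) (A := A) (B := B) hcop.symm.neg_right hq
        (neg_ne_zero.2 hp) (by linear_combination -hA) (by linear_combination -hB)
      rw [hgq, show q = -(2 * p) by linarith]
      have hpQ : (p : ℚ) ≠ 0 := by exact_mod_cast hp
      push_cast; field_simp

end Fermat.Agent.X015
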