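import Fermat.Agent.X015.Curve

/-!
# j-invariants of curves with a 3- or 5-isogeny

The parametrisations `j = (t + 27)(t + 3)³ / t` resp. `j = (s² + 10 s + 5)³ / s` attached to a
point of order `3` resp. `5`, and the incompatibility of both with semistability.
-/

namespace Fermat.Agent.X015

open WeierstrassCurve

variable {K : Type*} [Field K]

/-- The variable change moving `(x, y)` to the origin with horizontal tangent of slope `ℓ`. -/
def normalise (x y ℓ : K) : VariableChange K := ⟨1, x, ℓ, y⟩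

variable (E : WeierstrassCurve K)

theorem normalise_a₆ {x y : K} (h : E.toAffine.Equation x y) (ℓ : K) :
    (normalise x y ℓ • E).a₆ = 0 := by
  rw [Affine.equation_iff] at h
  simp only [variableChange_a₆, normalise, inv_one, Units.val_one]
  linear_combination -h

theorem normalise_a₃ (x y ℓ : K) :
    (normalise x y ℓ • E).a₃ = y - E.toAffine.negY x y := by
  simp only [variableChange_a₃, normalise, inv_one, Units.val_one, Affine.negY]
  ring

theorem normalise_a₂ (x y ℓ : K) :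
    (normalise x y ℓ • E).a₂ = x - E.toAffine.addX x x ℓ := by
  simp only [variableChange_a₂, normalise, inv_one, Units.val_one, Affine.addX]
  ring

variable [DecidableEq K]

theorem normalise_a₄ {x y : K} (hD : y ≠ E.toAffine.negY x y) :
    (normalise x y (E.toAffine.slope x x y y) • E).a₄ = 0 := by
  have hD' : y - E.toAffine.negY x y ≠ 0 := sub_ne_zero.2 hD
  have h : E.toAffine.slope x x y y * (y - E.toAffine.negY x y)
      = 3 * x ^ 2 + 2 * E.a₂ * x + E.a₄ - E.a₁ * y := by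
    rw [Affine.slope_of_Y_ne rfl hD, div_mul_cancel₀ _ hD']
  simp only [Affine.negY] at h
  simp only [variableChange_a₄, normalise, inv_one, Units.val_one]
  linear_combination -h

/-- An affine point of order `3`. -/
theorem param_three {x y : K} (h : E.toAffine.Equation x y) (hΔ : E.Δ ≠ 0)
    (hy : y ≠ E.toAffine.negY x y)
    (hX : E.toAffine.addX x x (E.toAffine.slope x x y y) = x) :
    let t : K := (E.b₄ + x * E.b₂ + 6 * x ^ 2) ^ 3 /
      (E.b₆ + 2 * x * E.b₄ + x ^ 2 * E.b₂ + 4 * x ^ 3) ^ 2 - 27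
    t ≠ 0 ∧ E.c₄ ^ 3 * t = E.Δ * ((t + 27) * (t + 3) ^ 3) := by
  intro t
  set C := normalise x y (E.toAffine.slope x x y y)
  set E' := C • E
  have h4 : E'.a₄ = 0 := normalise_a₄ E hy
  have h6 : E'.a₆ = 0 := normalise_a₆ E h _
  have h2 : E'.a₂ = 0 := by rw [normalise_a₂, hX, sub_self]
  have h3 : E'.a₃ ≠ 0 := by rw [normalise_a₃]; exact sub_ne_zero.2 hy
  have ec : E'.c₄ = E.c₄ := by
    simp [E', C, normalise, variableChange_c₄]
  have eΔ : E'.Δ = E.Δ := by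
    simp [E', C, normalise, variableChange_Δ]
  have e4 : E'.b₄ = E.b₄ + x * E.b₂ + 6 * x ^ 2 := by
    simp [E', C, normalise, variableChange_b₄]
  have e6 : E'.b₆ = E.b₆ + 2 * x * E.b₄ + x ^ 2 * E.b₂ + 4 * x ^ 3 := by
    simp [E', C, normalise, variableChange_b₆]
  have hc : E'.c₄ = E'.a₁ * (E'.a₁ ^ 3 - 24 * E'.a₃) := by
    simp only [WeierstrassCurve.c₄, b₂, b₄, h2, h4]; ring
  have hd : E'.Δ = E'.a₃ ^ 3 * (E'.a₁ ^ 3 - 27 * E'.a₃) := by
    simp only [WeierstrassCurve.Δ, b₂, b₄, b₆, b₈, h2, h4, h6]; ring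
  have ht : t = E'.a₁ ^ 3 / E'.a₃ - 27 := by
    rw [show t = E'.b₄ ^ 3 / E'.b₆ ^ 2 - 27 by rw [e4, e6]]
    simp only [b₄, b₆, h4, h6]
    field_simp
    ring
  rw [← eΔ, hd] at hΔ
  rw [← ec, ← eΔ, hc, hd, ht]
  refine ⟨?_, by field_simp; ring⟩
  intro h0
  apply (mul_ne_zero_iff.1 hΔ).2
  field_simp at h0
  linear_combination h0

/-- An affine point of order `5`: `x₂` is the abscissa of its double, `3 P = -2 P`. -/
theorem param_five {x y x₂ y₂ : K} (h : E.toAffine.Equation x y) (hΔ : E.Δ ≠ 0)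
    (hy : y ≠ E.toAffine.negY x y)
    (hx₂ : E.toAffine.addX x x (E.toAffine.slope x x y y) = x₂)
    (hy₂ : E.toAffine.addY x x y (E.toAffine.slope x x y y) = y₂)
    (hne : x ≠ x₂)
    (hX : E.toAffine.addX x x₂ (E.toAffine.slope x x₂ y y₂) = x₂) :
    let s : K := E.Δ / ((x - x₂) ^ 2) ^ 3
    s ≠ 0 ∧ E.c₄ ^ 3 * s = E.Δ * (s ^ 2 + 10 * s + 5) ^ 3 := by
  intro s
  set ℓ := E.toAffine.slope x x y y
  set E' := normalise x y ℓ • E
  have h4 : E'.a₄ = 0 := normalise_a₄ E hy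
  have h6 : E'.a₆ = 0 := normalise_a₆ E h _
  have h3 : E'.a₃ ≠ 0 := by rw [normalise_a₃]; exact sub_ne_zero.2 hy
  have h2 : E'.a₂ = x - x₂ := by rw [normalise_a₂, hx₂]
  have h2' : E'.a₂ ≠ 0 := by rw [h2]; exact sub_ne_zero.2 hne
  have ec : E'.c₄ = E.c₄ := by simp [E', normalise, variableChange_c₄]
  have eΔ : E'.Δ = E.Δ := by simp [E', normalise, variableChange_Δ]
  set μ := E.toAffine.slope x x₂ y y₂ with hμ
  have hμ' : μ * E'.a₂ = E'.a₃ - (ℓ + E.a₁) * E'.a₂ := by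
    rw [h2, hμ, Affine.slope_of_X_ne hne, div_mul_cancel₀ _ (sub_ne_zero.2 hne),
      normalise_a₃, ← hy₂]
    simp only [Affine.addY, Affine.negAddY, Affine.negY, hx₂]
    ring
  have ha1 : E'.a₁ = E.a₁ + 2 * ℓ := by simp [E', normalise, variableChange_a₁]
  have hrel : E'.a₁ * E'.a₂ * E'.a₃ = E'.a₃ ^ 2 + E'.a₂ ^ 3 := by
    have hX' : μ ^ 2 + E.a₁ * μ - E.a₂ - x - x₂ = x₂ := hX
    have hx' : ℓ ^ 2 + E.a₁ * ℓ - E.a₂ - x - x = x₂ := hx₂
    rw [ha1]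
    linear_combination (μ * E'.a₂ + E'.a₃ - ℓ * E'.a₂) * hμ'
      - E'.a₂ ^ 2 * hX' + E'.a₂ ^ 2 * hx' - E'.a₂ ^ 2 * h2
  have ha : E'.a₁ = (E'.a₃ ^ 2 + E'.a₂ ^ 3) / (E'.a₂ * E'.a₃) := by
    rw [eq_div_iff (mul_ne_zero h2' h3)]; linear_combination hrel
  have key : E'.c₄ * E'.a₂ ^ 10 =
      E'.Δ ^ 2 + 10 * E'.Δ * E'.a₂ ^ 6 + 5 * E'.a₂ ^ 12 := by
    simp only [WeierstrassCurve.c₄, WeierstrassCurve.Δ, b₂, b₄, b₆, b₈, h4, h6, ha]
    field_simp
    ring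
  have hs : s = E'.Δ / E'.a₂ ^ 6 := by
    simp only [s, eΔ, h2]; ring
  rw [← eΔ] at hΔ
  refine ⟨by rw [hs]; exact div_ne_zero hΔ (pow_ne_zero _ h2'), ?_⟩
  rw [← ec, ← eΔ, hs]
  have : (E'.Δ / E'.a₂ ^ 6) ^ 2 + 10 * (E'.Δ / E'.a₂ ^ 6) + 5 = E'.c₄ / E'.a₂ ^ 2 := by
    field_simp
    linear_combination -key
  rw [this]
  field_simp

/-- No semistable model carries both parametrisations. -/
theorem no_semistable {Δ c₄ : ℤ} (hΔ : Δ ≠ 0)
    (hss : (5 : ℤ) ∣ Δ → ¬ (5 : ℤ) ∣ c₄) {t s : ℚ} (ht : t ≠ 0) (hs : s ≠ 0)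
    (h3 : (c₄ : ℚ) ^ 3 * t = Δ * ((t + 27) * (t + 3) ^ 3))
    (h5 : (c₄ : ℚ) ^ 3 * s = Δ * (s ^ 2 + 10 * s + 5) ^ 3) : False := by
  have hΔQ : (Δ : ℚ) ≠ 0 := by exact_mod_cast hΔ
  have hQ : s ^ 2 + 10 * s + 5 ≠ 0 := by
    intro h
    have hsq : IsSquare ((20 : ℕ) : ℚ) := ⟨s + 5, by push_cast; linear_combination -h⟩
    rw [Rat.isSquare_natCast_iff] at hsq
    obtain ⟨r, hr⟩ := hsq
    have : r ≤ 4 := by nlinarith
    interval_cases r <;> omega
  have hc : (c₄ : ℚ) ≠ 0 := by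
    intro h
    rw [h] at h5
    simp [hΔQ, hQ] at h5
  have ht3 : t + 3 ≠ 0 := by
    intro h
    rw [h] at h3
    simp [hc, ht] at h3
  set w : ℚ := (s ^ 2 + 10 * s + 5) / (t + 3) with hwdef
  have hw : w ≠ 0 := div_ne_zero hQ ht3
  have hwQ : s ^ 2 + 10 * s + 5 = w * (t + 3) := by rw [hwdef]; field_simp
  have hrel : (t + 27) * s = w ^ 3 * t := by
    rw [hwQ] at h5
    apply mul_left_cancel₀ (mul_ne_zero hΔQ (pow_ne_zero 3 ht3))
    linear_combination -s * h3 + t * h5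
  have hF : 3 * w ^ 4 - (s ^ 2 + 10 * s + 5) * w ^ 3 + 24 * s * w
      + s * (s ^ 2 + 10 * s + 5) = 0 := by
    rw [hwQ]; linear_combination w * hrel
  have hj : ∃ nu de : ℤ, ¬ (5 : ℤ) ∣ de ∧ ¬ (125 : ℤ) ∣ nu ∧ (5 : ℤ) ∣ nu ∧
      de * c₄ ^ 3 = nu * Δ := by
    rcases plane_points hs hw hF with ⟨rfl, -⟩ | ⟨rfl, -⟩ | ⟨rfl, -⟩ | ⟨rfl, -⟩
    · exact ⟨-25, 2, by norm_num, by norm_num, by norm_num, by
        have : (2 : ℚ) * (c₄ : ℚ) ^ 3 = -25 * Δ := by linear_combination (-1 / 5 : ℚ) * h5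
        exact_mod_cast this⟩
    · exact ⟨46969655, 32768, by norm_num, by norm_num, by norm_num, by
        have : (32768 : ℚ) * (c₄ : ℚ) ^ 3 = 46969655 * Δ := by
          linear_combination (-32768 * 8 / 25 : ℚ) * h5
        exact_mod_cast this⟩
    · exact ⟨-121945, 32, by norm_num, by norm_num, by norm_num, by
        have : (32 : ℚ) * (c₄ : ℚ) ^ 3 = -121945 * Δ := by
          linear_combination (-32 * 2 / 25 : ℚ) * h5
        exact_mod_cast this⟩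
    · exact ⟨-349938025, 8, by norm_num, by norm_num, by norm_num, by
        have : (8 : ℚ) * (c₄ : ℚ) ^ 3 = -349938025 * Δ := by
          linear_combination (-8 / 40 : ℚ) * h5
        exact_mod_cast this⟩
  obtain ⟨nu, de, hde, hnu, hnu5, hEq⟩ := hj
  have h5p : Prime (5 : ℤ) := Int.prime_iff_natAbs_prime.2 (by norm_num)
  have hc5 : (5 : ℤ) ∣ c₄ := by
    have : (5 : ℤ) ∣ de * c₄ ^ 3 := hEq ▸ hnu5.mul_right Δ
    exact h5p.dvd_of_dvd_pow ((h5p.dvd_or_dvd this).resolve_left hde)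
  refine hss ?_ hc5
  by_contra hΔ5
  apply hnu
  have h125 : (125 : ℤ) ∣ nu * Δ := hEq ▸ Dvd.dvd.mul_left
    (by simpa using pow_dvd_pow_of_dvd hc5 3) de
  have hco : IsCoprime ((125 : ℤ)) Δ := by
    simpa using (h5p.coprime_iff_not_dvd.2 hΔ5).pow_left (m := 3)
  exact hco.dvd_of_dvd_mul_right h125

end Fermat.Agent.X015
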